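/-
Programme TW (S56), brick TAME (helper22), file 1: wild inertia at the level of a ring with a
group action.

`B` a commutative ring with an action of a group `G` by ring automorphisms, `P` an ideal.
`wild P G` = the elements of `G` acting trivially on every graded piece `P^n / P^(n+1)`
(for `P` the maximal ideal of a discrete valuation ring this is the first ramification group
`G_1`).  Main results:

* `smul_eq_of_mem_wild` : if `B` is a noetherian domain, `P` is maximal, `τ ∈ wild P G`,
  `τ ^ m = 1` and `(m : B) ∉ P`, then `τ` acts trivially on `B`.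
* `isPGroup_wild` : if moreover the action is faithful, `G` is finite and the rational prime `q`
  lies in `P`, then `wild P G` is a `q`-group.
-/
import Mathlib

set_option autoImplicit false

namespace Fermat.Agent.TW.Tame22.Wild

variable {B : Type*} [CommRing B] {G : Type*} [Group G] [MulSemiringAction G B]

/-- If `σ` maps `P` into `P` then it maps `P ^ m` into `P ^ m`. -/
theorem smul_mem_pow_of_forall {P : Ideal B} {σ : G} (h : ∀ x ∈ P, σ • x ∈ P) (m : ℕ) {x : B}
    (hx : x ∈ P ^ m) : σ • x ∈ P ^ m := by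
  have h1 : Ideal.map (MulSemiringAction.toRingHom G B σ) P ≤ P := by
    rw [Ideal.map_le_iff_le_comap]
    intro y hy
    exact h y hy
  have h2 : MulSemiringAction.toRingHom G B σ x ∈
      Ideal.map (MulSemiringAction.toRingHom G B σ) (P ^ m) := Ideal.mem_map_of_mem _ hx
  rw [Ideal.map_pow] at h2
  exact Ideal.pow_right_mono h1 m h2

/-- For a maximal ideal, `σ P ⊆ P` implies `σ⁻¹ P ⊆ P`. -/
theorem inv_smul_mem_of_forall {P : Ideal B} [hP : P.IsMaximal] {σ : G}
    (h : ∀ x ∈ P, σ • x ∈ P) {x : B} (hx : x ∈ P) : σ⁻¹ • x ∈ P := by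
  have hle : P ≤ Ideal.comap (MulSemiringAction.toRingHom G B σ) P := fun y hy => h y hy
  have hne : Ideal.comap (MulSemiringAction.toRingHom G B σ) P ≠ ⊤ :=
    Ideal.comap_ne_top _ hP.ne_top
  have heq : P = Ideal.comap (MulSemiringAction.toRingHom G B σ) P := hP.eq_of_le hne hle
  rw [heq, Ideal.mem_comap]
  change σ • σ⁻¹ • x ∈ P
  rwa [smul_inv_smul]

/-- The wild inertia group: elements acting trivially on all `P ^ n / P ^ (n+1)`. -/
def wild (P : Ideal B) [P.IsMaximal] (G : Type*) [Group G] [MulSemiringAction G B] :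
    Subgroup G where
  carrier := {σ | ∀ (n : ℕ) (x : B), x ∈ P ^ n → σ • x - x ∈ P ^ (n + 1)}
  one_mem' := fun n x _ => by simp
  mul_mem' := by
    intro a b ha hb n x hx
    have ha1 : ∀ y ∈ P, a • y ∈ P := by
      intro y hy
      have := ha 1 y (by simpa using hy)
      have h2 : a • y - y ∈ P := Ideal.pow_le_self (by norm_num) this
      have : a • y = (a • y - y) + y := by ring
      rw [this]; exact P.add_mem h2 hy
    have h1 : (a * b) • x - x = a • (b • x - x) + (a • x - x) := by
      rw [mul_smul, smul_sub]; ring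
    rw [h1]
    exact (P ^ (n + 1)).add_mem (smul_mem_pow_of_forall ha1 (n + 1) (hb n x hx)) (ha n x hx)
  inv_mem' := by
    intro a ha n x hx
    have ha1 : ∀ y ∈ P, a • y ∈ P := by
      intro y hy
      have := ha 1 y (by simpa using hy)
      have h2 : a • y - y ∈ P := Ideal.pow_le_self (by norm_num) this
      have : a • y = (a • y - y) + y := by ring
      rw [this]; exact P.add_mem h2 hy
    have ha2 : ∀ y ∈ P, a⁻¹ • y ∈ P := fun y hy => inv_smul_mem_of_forall ha1 hy
    have h1 : a⁻¹ • x - x = - (a⁻¹ • (a • x - x)) := by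
      rw [smul_sub, inv_smul_smul]; ring
    rw [h1]
    exact (P ^ (n + 1)).neg_mem (smul_mem_pow_of_forall ha2 (n + 1) (ha n x hx))

theorem mem_wild_iff {P : Ideal B} [P.IsMaximal] {σ : G} :
    σ ∈ wild P G ↔ ∀ (n : ℕ) (x : B), x ∈ P ^ n → σ • x - x ∈ P ^ (n + 1) := Iff.rfl

/-- Wild inertia is contained in the inertia group. -/
theorem wild_le_inertia (P : Ideal B) [P.IsMaximal] : wild P G ≤ P.inertia G := by
  intro σ hσ x
  have := hσ 0 x (by simp)
  simpa using this


/-- The stabiliser property: wild elements preserve every power of `P`. -/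
theorem smul_mem_pow_of_mem_wild {P : Ideal B} [P.IsMaximal] {σ : G} (hσ : σ ∈ wild P G) (m : ℕ)
    {x : B} (hx : x ∈ P ^ m) : σ • x ∈ P ^ m := by
  have h2 : σ • x - x ∈ P ^ m := Ideal.pow_le_pow_right (Nat.le_succ m) (hσ m x hx)
  have : σ • x = (σ • x - x) + x := by ring
  rw [this]; exact (P ^ m).add_mem h2 hx

/-- For a maximal ideal `P`, an element not in `P` is a non-zero-divisor modulo `P ^ k`. -/
theorem mem_pow_of_mul_mem_pow {P : Ideal B} [hP : P.IsMaximal] {a w : B} (ha : a ∉ P) (k : ℕ)
    (h : a * w ∈ P ^ k) : w ∈ P ^ k := by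
  rcases Nat.eq_zero_or_pos k with rfl | hk
  · simp
  · have hprim : (P ^ k).IsPrimary := by
      apply Ideal.isPrimary_of_isMaximal_radical
      rw [Ideal.radical_pow P hk.ne', hP.isPrime.radical]
      exact hP
    have h' : w * a ∈ P ^ k := by rwa [mul_comm]
    rcases (Ideal.isPrimary_iff.mp hprim).2 h' with h1 | h1
    · exact h1
    · rw [Ideal.radical_pow P hk.ne', hP.isPrime.radical] at h1
      exact absurd h1 ha

/-- Key lemma: a wild element of order prime to the residue characteristic acts trivially. -/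
theorem smul_eq_of_mem_wild [IsNoetherianRing B] [IsDomain B] {P : Ideal B} [hP : P.IsMaximal]
    {τ : G} (hτ : τ ∈ wild P G) {m : ℕ} (hm : τ ^ m = 1) (hmP : (m : B) ∉ P) (x : B) :
    τ • x = x := by
  -- all powers of τ are wild
  have hpow : ∀ i : ℕ, τ ^ i ∈ wild P G := fun i => (wild P G).pow_mem hτ i
  -- claim by induction on N
  have claim : ∀ N : ℕ, ∀ (i : ℕ) (x : B), τ ^ i • x - x ∈ P ^ N := by
    intro N
    induction N with
    | zero => intro i x; simp
    | succ N ih =>
      intro i x
      set y : B := ∑ j ∈ Finset.range m, τ ^ j • x with hy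
      set z : B := (m : B) * x - y with hz
      have hzmem : z ∈ P ^ N := by
        have : z = ∑ j ∈ Finset.range m, (x - τ ^ j • x) := by
          rw [hz, hy, Finset.sum_sub_distrib]; simp
        rw [this]
        refine (P ^ N).sum_mem fun j _ => ?_
        have := ih j x
        have h2 : x - τ ^ j • x = - (τ ^ j • x - x) := by ring
        rw [h2]; exact (P ^ N).neg_mem this
      -- y is fixed by τ, hence by τ ^ i
      have hyfix1 : τ • y = y := by
        rw [hy, Finset.smul_sum]
        have h1 : ∀ j, τ • τ ^ j • x = τ ^ (j + 1) • x := fun j => by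
          rw [← mul_smul, ← pow_succ']
        simp_rw [h1]
        have h3 := (Finset.sum_range_succ' (fun j => τ ^ j • x) m).symm.trans
          (Finset.sum_range_succ (fun j => τ ^ j • x) m)
        simp only [hm, pow_zero] at h3
        exact add_right_cancel h3
      have hyfix : ∀ i : ℕ, τ ^ i • y = y := by
        intro i
        induction i with
        | zero => simp
        | succ i ih2 => rw [pow_succ, mul_smul, hyfix1, ih2]
      have hkey : (m : B) * (τ ^ i • x - x) = τ ^ i • z - z := by
        have h1 : τ ^ i • z = (m : B) * τ ^ i • x - y := by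
          rw [hz, smul_sub, smul_mul', hyfix i]
          congr 2
          exact map_natCast (MulSemiringAction.toRingHom G B (τ ^ i)) m
        rw [h1, hz]; ring
      apply mem_pow_of_mul_mem_pow hmP (N + 1)
      rw [hkey]
      exact hpow i N z hzmem
  have h0 : τ • x - x ∈ (⨅ N : ℕ, P ^ N : Ideal B) := by
    rw [Ideal.mem_iInf]
    intro N
    simpa using claim N 1 x
  rw [Ideal.iInf_pow_eq_bot_of_isDomain P hP.ne_top, Ideal.mem_bot, sub_eq_zero] at h0
  exact h0


/-- A natural number prime to `q` is not in a proper ideal containing `q`. -/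
theorem natCast_not_mem {P : Ideal B} (hP : P ≠ ⊤) {q m : ℕ} (hqP : (q : B) ∈ P)
    (hqm : Nat.Coprime m q) : (m : B) ∉ P := by
  intro hm
  apply hP
  rw [Ideal.eq_top_iff_one]
  have h1 : (m : ℤ) * Nat.gcdA m q + (q : ℤ) * Nat.gcdB m q = 1 := by
    have := Nat.gcd_eq_gcd_ab m q
    rw [hqm.gcd_eq_one] at this
    exact_mod_cast this.symm
  have h2 : (m : B) * ((Nat.gcdA m q : ℤ) : B) + (q : B) * ((Nat.gcdB m q : ℤ) : B) = 1 := by
    have := congrArg (Int.cast : ℤ → B) h1
    push_cast at this
    exact this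
  rw [← h2]
  exact P.add_mem (P.mul_mem_right _ hm) (P.mul_mem_right _ hqP)

/-- **Wild inertia is a `q`-group** (`q` the residue characteristic). -/
theorem isPGroup_wild [IsNoetherianRing B] [IsDomain B] [FaithfulSMul G B] [Finite G]
    (P : Ideal B) [hP : P.IsMaximal] (q : ℕ) [hq : Fact q.Prime] (hqP : (q : B) ∈ P) :
    IsPGroup q (wild P G) := by
  rintro ⟨σ, hσ⟩
  have hn : orderOf σ ≠ 0 := (orderOf_pos σ).ne'
  obtain ⟨a, m, hm, hnm⟩ := Nat.exists_eq_pow_mul_and_not_dvd hn q hq.out.ne_one
  refine ⟨a, Subtype.ext ?_⟩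
  change σ ^ q ^ a = 1
  have hτ : σ ^ q ^ a ∈ wild P G := (wild P G).pow_mem hσ _
  have hτm : (σ ^ q ^ a) ^ m = 1 := by
    rw [← pow_mul, ← hnm, pow_orderOf_eq_one]
  have hcop : Nat.Coprime m q := ((Nat.Prime.coprime_iff_not_dvd hq.out).mpr hm).symm
  have hmP : (m : B) ∉ P := natCast_not_mem hP.ne_top hqP hcop
  apply FaithfulSMul.eq_of_smul_eq_smul (α := B)
  intro x
  rw [smul_eq_of_mem_wild hτ hτm hmP x, one_smul]

end Fermat.Agent.TW.Tame22.Wild
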