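/-
Programme TW (S56), brick TAME (helper22), file 2: the tame character.

`B` a Dedekind domain with an action of a group `G`, `P ≠ ⊥` a maximal ideal.  An element `τ` of
the inertia group acts on the one-dimensional `B/P`-vector space `P/P^2` as multiplication by a
scalar `θ(τ)`; this is a monoid homomorphism `theta : P.inertia G →* B ⧸ P` whose kernel is the
wild inertia group `Wild.wild P G`.  Consequences (for `G` finite):

* `exists_generator` : inertia modulo wild inertia is cyclic;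
* `frob_conj_mem_wild` : if `φ` stabilises `P` and acts as `x ↦ x ^ q` on `B ⧸ P` then
  `(φ τ φ⁻¹)⁻¹ τ ^ q` is wild for every `τ` in the inertia group.
-/
import Mathlib
import Fermat.Agent.TW.Tame22.Wild

set_option autoImplicit false

namespace Fermat.Agent.TW.Tame22.Theta

open Fermat.Agent.TW.Tame22.Wild

variable {B : Type*} [CommRing B] {G : Type*} [Group G] [MulSemiringAction G B]

/-- `τ` acts on `P / P^2` as multiplication by `a`. -/
def ActsBy (P : Ideal B) (τ : G) (a : B) : Prop := ∀ x ∈ P, τ • x - a * x ∈ P ^ 2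

theorem smul_mem_of_mem_inertia {P : Ideal B} {τ : G} (hτ : τ ∈ P.inertia G) {x : B}
    (hx : x ∈ P) : τ • x ∈ P := by
  have h := hτ x
  have h2 : τ • x = (τ • x - x) + x := by ring
  rw [h2]; exact P.add_mem h hx

theorem actsBy_one (P : Ideal B) : ActsBy P (1 : G) 1 := by
  intro x _; simp

theorem actsBy_mul {P : Ideal B} {τ σ : G} {a b : B} (hτ : τ ∈ P.inertia G)
    (ha : ActsBy P τ a) (hb : ActsBy P σ b) : ActsBy P (τ * σ) (a * b) := by
  intro x hx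
  have h1 : σ • x - b * x ∈ P ^ 2 := hb x hx
  have h2 : τ • x - a * x ∈ P ^ 2 := ha x hx
  have h3 : τ • b - b ∈ P := hτ b
  have h4 : τ • (σ • x - b * x) ∈ P ^ 2 :=
    smul_mem_pow_of_forall (fun y hy => smul_mem_of_mem_inertia hτ hy) 2 h1
  have h5 : τ • x ∈ P := smul_mem_of_mem_inertia hτ hx
  have key : (τ * σ) • x - a * b * x
      = τ • (σ • x - b * x) + (τ • b - b) * (τ • x) + b * (τ • x - a * x) := by
    rw [mul_smul, smul_sub, smul_mul']; ring
  rw [key]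
  refine (P ^ 2).add_mem ((P ^ 2).add_mem h4 ?_) ((P ^ 2).mul_mem_left _ h2)
  rw [pow_two]
  exact Ideal.mul_mem_mul h3 h5

theorem actsBy_pow {P : Ideal B} {τ : G} {a : B} (hτ : τ ∈ P.inertia G)
    (ha : ActsBy P τ a) (n : ℕ) : ActsBy P (τ ^ n) (a ^ n) := by
  induction n with
  | zero => simpa using actsBy_one P
  | succ n ih =>
    rw [pow_succ', pow_succ']
    exact actsBy_mul hτ ha ih

section Dedekind

variable [IsDedekindDomain B] {P : Ideal B} [hPmax : P.IsMaximal]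

theorem exists_actsBy (hP0 : P ≠ ⊥) {τ : G} (hτ : τ ∈ P.inertia G) : ∃ a, ActsBy P τ a := by
  obtain ⟨π, hπ1, hπ2⟩ := Ideal.exists_mem_pow_notMem_pow_succ P hP0 hPmax.ne_top 1
  have hτπ : τ • π ∈ P ^ 1 := by
    rw [pow_one] at hπ1 ⊢; exact smul_mem_of_mem_inertia hτ hπ1
  obtain ⟨a, e, he, hae⟩ := Ideal.exists_mul_add_mem_pow_succ hP0 π (τ • π) hπ1 hπ2 hτπ
  refine ⟨a, fun x hx => ?_⟩
  have hx1 : x ∈ P ^ 1 := by rwa [pow_one]
  obtain ⟨b, e', he', hbe⟩ := Ideal.exists_mul_add_mem_pow_succ hP0 π x hπ1 hπ2 hx1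
  have h3 : τ • b - b ∈ P := hτ b
  have h4 : τ • e' ∈ P ^ 2 :=
    smul_mem_pow_of_forall (fun y hy => smul_mem_of_mem_inertia hτ hy) 2 he'
  have key : τ • x - a * x = π * a * (τ • b - b) + e * τ • b + τ • e' - a * e' := by
    rw [← hbe, smul_add, smul_mul', ← hae]; ring
  rw [key]
  rw [pow_one] at hπ1
  refine (P ^ 2).sub_mem ((P ^ 2).add_mem ((P ^ 2).add_mem ?_ ((P ^ 2).mul_mem_right _ he)) h4)
    ((P ^ 2).mul_mem_left _ he')
  rw [pow_two]
  exact Ideal.mul_mem_mul (P.mul_mem_right _ hπ1) h3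

theorem actsBy_unique (hP0 : P ≠ ⊥) {τ : G} {a a' : B} (ha : ActsBy P τ a)
    (ha' : ActsBy P τ a') : a - a' ∈ P := by
  obtain ⟨π, hπ1, hπ2⟩ := Ideal.exists_mem_pow_notMem_pow_succ P hP0 hPmax.ne_top 1
  rw [pow_one] at hπ1
  have h1 := ha π hπ1
  have h2 := ha' π hπ1
  have h3 : π * (a - a') ∈ P ^ (1 + 1) := by
    have : π * (a - a') = (τ • π - a' * π) - (τ • π - a * π) := by ring
    rw [this]; exact (P ^ 2).sub_mem h2 h1
  exact Ideal.mem_prime_of_mul_mem_pow hP0 hπ2 h3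

omit [IsDedekindDomain B] in
/-- `τ` in the inertia group is wild iff it acts trivially on `P / P^2`. -/
theorem mem_wild_iff_actsBy_one {τ : G} (hτ : τ ∈ P.inertia G) :
    τ ∈ wild P G ↔ ActsBy P τ 1 := by
  constructor
  · intro h x hx
    have := h 1 x (by rwa [pow_one])
    simpa using this
  · intro h n
    induction n with
    | zero => intro x _; simpa using hτ x
    | succ n ih =>
      intro x hx
      rw [pow_succ'] at hx
      refine Submodule.smul_induction_on hx ?_ ?_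
      · intro y hy z hz
        have h1 : τ • y - 1 * y ∈ P ^ 2 := h y hy
        rw [one_mul] at h1
        have h2 : τ • z - z ∈ P ^ (n + 1) := ih z hz
        have h3 : τ • y ∈ P := smul_mem_of_mem_inertia hτ hy
        have key : τ • (y • z) - y • z = τ • y * (τ • z - z) + (τ • y - y) * z := by
          rw [smul_eq_mul, smul_mul']; ring
        rw [key]
        refine (P ^ (n + 1 + 1)).add_mem ?_ ?_
        · rw [pow_succ' P (n + 1)]
          exact Ideal.mul_mem_mul h3 h2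
        · have : P ^ (n + 1 + 1) = P ^ 2 * P ^ n := by rw [← pow_add]; congr 1; ring
          rw [this]
          exact Ideal.mul_mem_mul h1 hz
      · intro y z hy hz
        have : τ • (y + z) - (y + z) = (τ • y - y) + (τ • z - z) := by
          rw [smul_add]; ring
        rw [this]
        exact (P ^ (n + 1 + 1)).add_mem hy hz

/-- **The tame character** `θ : I →* B ⧸ P`. -/
noncomputable def theta (hP0 : P ≠ ⊥) : P.inertia G →* B ⧸ P where
  toFun τ := Ideal.Quotient.mk P (exists_actsBy hP0 τ.2).choose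
  map_one' := by
    have h1 := (exists_actsBy hP0 (1 : P.inertia G).2).choose_spec
    have h2 : ActsBy P ((1 : P.inertia G) : G) 1 := actsBy_one P
    rw [← map_one (Ideal.Quotient.mk P), Ideal.Quotient.mk_eq_mk_iff_sub_mem]
    exact actsBy_unique hP0 h1 h2
  map_mul' := by
    intro τ σ
    have h1 := (exists_actsBy hP0 (τ * σ).2).choose_spec
    have h2 := (exists_actsBy hP0 τ.2).choose_spec
    have h3 := (exists_actsBy hP0 σ.2).choose_spec
    rw [← map_mul (Ideal.Quotient.mk P), Ideal.Quotient.mk_eq_mk_iff_sub_mem]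
    exact actsBy_unique hP0 h1 (actsBy_mul τ.2 h2 h3)

theorem theta_eq_iff (hP0 : P ≠ ⊥) (τ : P.inertia G) (a : B) :
    theta hP0 τ = Ideal.Quotient.mk P a ↔ ActsBy P (τ : G) a := by
  have h1 := (exists_actsBy hP0 τ.2).choose_spec
  constructor
  · intro h
    change Ideal.Quotient.mk P _ = _ at h
    rw [Ideal.Quotient.mk_eq_mk_iff_sub_mem] at h
    intro x hx
    have h2 := h1 x hx
    have : (τ : G) • x - a * x
        = ((τ : G) • x - (exists_actsBy hP0 τ.2).choose * x)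
          + ((exists_actsBy hP0 τ.2).choose - a) * x := by ring
    rw [this]
    refine (P ^ 2).add_mem h2 ?_
    rw [pow_two]; exact Ideal.mul_mem_mul h hx
  · intro h
    change Ideal.Quotient.mk P _ = _
    rw [Ideal.Quotient.mk_eq_mk_iff_sub_mem]
    exact actsBy_unique hP0 h1 h

theorem theta_eq_one_iff (hP0 : P ≠ ⊥) (τ : P.inertia G) :
    theta hP0 τ = 1 ↔ (τ : G) ∈ wild P G := by
  rw [mem_wild_iff_actsBy_one τ.2, ← theta_eq_iff hP0 τ 1, map_one]

theorem theta_eq_theta_iff (hP0 : P ≠ ⊥) (τ σ : P.inertia G) :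
    theta hP0 τ = theta hP0 σ ↔ ((τ : G)⁻¹ * σ) ∈ wild P G := by
  have h0 : theta hP0 τ⁻¹ * theta hP0 τ = 1 := by rw [← map_mul, inv_mul_cancel, map_one]
  have h0' : theta hP0 τ * theta hP0 τ⁻¹ = 1 := by rw [← map_mul, mul_inv_cancel, map_one]
  have h1 : ((τ : G)⁻¹ * σ) = ((τ⁻¹ * σ : P.inertia G) : G) := rfl
  rw [h1, ← theta_eq_one_iff hP0, map_mul]
  constructor
  · intro h; rw [← h, h0]
  · intro h
    calc theta hP0 τ = theta hP0 τ * (theta hP0 τ⁻¹ * theta hP0 σ) := by rw [h, mul_one]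
      _ = theta hP0 σ := by rw [← mul_assoc, h0', one_mul]


/-- **Inertia modulo wild inertia is cyclic.** -/
theorem exists_generator [Finite G] (hP0 : P ≠ ⊥) :
    ∃ τ₀ ∈ P.inertia G, ∀ τ ∈ P.inertia G, ∃ n : ℤ, (τ₀ ^ n)⁻¹ * τ ∈ wild P G := by
  have hdom : IsDomain (B ⧸ P) := (Ideal.Quotient.isDomain_iff_prime P).mpr hPmax.isPrime
  let θ' : P.inertia G →* (B ⧸ P)ˣ := (theta (G := G) hP0).toHomUnits
  have hθ' : ∀ τ : P.inertia G, ((θ' τ : (B ⧸ P)ˣ) : B ⧸ P) = theta hP0 τ := fun τ => rfl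
  have hfin : Finite θ'.range := Finite.of_surjective θ'.rangeRestrict θ'.rangeRestrict_surjective
  have hcyc : IsCyclic θ'.range := isCyclic_subgroup_units θ'.range
  obtain ⟨⟨g, hg⟩, hgen⟩ := hcyc.exists_generator
  obtain ⟨τ₀, rfl⟩ := MonoidHom.mem_range.mp hg
  refine ⟨τ₀, τ₀.2, fun τ hτ => ?_⟩
  obtain ⟨n, hn⟩ := Subgroup.mem_zpowers_iff.mp (hgen ⟨θ' ⟨τ, hτ⟩, MonoidHom.mem_range.mpr ⟨_, rfl⟩⟩)
  refine ⟨n, ?_⟩
  have h1 : θ' (τ₀ ^ n) = θ' ⟨τ, hτ⟩ := by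
    rw [map_zpow]
    have := congrArg Subtype.val hn
    simpa using this
  have h2 : theta hP0 (τ₀ ^ n) = theta hP0 ⟨τ, hτ⟩ := by
    rw [← hθ', ← hθ', h1]
  have h3 := (theta_eq_theta_iff hP0 _ _).mp h2
  simpa using h3

/-- Variant for a subgroup `J` of the inertia group: `J` modulo wild inertia is cyclic. -/
theorem exists_generator_of_le [Finite G] (hP0 : P ≠ ⊥) (J : Subgroup G)
    (hJ : J ≤ P.inertia G) :
    ∃ τ₀ ∈ J, ∀ τ ∈ J, ∃ n : ℤ, (τ₀ ^ n)⁻¹ * τ ∈ wild P G := by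
  have hdom : IsDomain (B ⧸ P) := (Ideal.Quotient.isDomain_iff_prime P).mpr hPmax.isPrime
  let θ' : J →* (B ⧸ P)ˣ := ((theta (G := G) hP0).toHomUnits).comp (Subgroup.inclusion hJ)
  have hθ' : ∀ τ : J, ((θ' τ : (B ⧸ P)ˣ) : B ⧸ P) = theta hP0 (Subgroup.inclusion hJ τ) :=
    fun τ => rfl
  have hfin : Finite θ'.range :=
    Finite.of_surjective θ'.rangeRestrict θ'.rangeRestrict_surjective
  have hcyc : IsCyclic θ'.range := isCyclic_subgroup_units θ'.range
  obtain ⟨⟨g, hg⟩, hgen⟩ := hcyc.exists_generator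
  obtain ⟨τ₀, rfl⟩ := MonoidHom.mem_range.mp hg
  refine ⟨τ₀, τ₀.2, fun τ hτ => ?_⟩
  obtain ⟨n, hn⟩ := Subgroup.mem_zpowers_iff.mp
    (hgen ⟨θ' ⟨τ, hτ⟩, MonoidHom.mem_range.mpr ⟨_, rfl⟩⟩)
  refine ⟨n, ?_⟩
  have h1 : θ' (τ₀ ^ n) = θ' ⟨τ, hτ⟩ := by
    rw [map_zpow]
    have := congrArg Subtype.val hn
    simpa using this
  have h2 : theta hP0 (Subgroup.inclusion hJ (τ₀ ^ n))
      = theta hP0 (Subgroup.inclusion hJ ⟨τ, hτ⟩) := by
    rw [← hθ', ← hθ', h1]
  have h3 := (theta_eq_theta_iff hP0 _ _).mp h2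
  simpa using h3

/-- **Frobenius acts on tame inertia by the `q`-th power.** -/
theorem frob_conj_mem_wild (hP0 : P ≠ ⊥) {q : ℕ} {φ : G} (hφP : ∀ x ∈ P, φ • x ∈ P)
    (hφ : ∀ x : B, φ • x - x ^ q ∈ P) {τ : G} (hτ : τ ∈ P.inertia G) :
    φ * τ * φ⁻¹ ∈ P.inertia G ∧ (φ * τ * φ⁻¹)⁻¹ * τ ^ q ∈ wild P G := by
  have hφinv : ∀ x ∈ P, φ⁻¹ • x ∈ P := fun x hx => inv_smul_mem_of_forall hφP hx
  have hconj : φ * τ * φ⁻¹ ∈ P.inertia G := by
    intro x
    have h1 : (φ * τ * φ⁻¹) • x - x = φ • (τ • (φ⁻¹ • x) - φ⁻¹ • x) := by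
      rw [mul_smul, mul_smul, smul_sub, smul_inv_smul]
    change (φ * τ * φ⁻¹) • x - x ∈ P
    rw [h1]
    exact hφP _ (hτ _)
  refine ⟨hconj, ?_⟩
  obtain ⟨a, ha⟩ := exists_actsBy hP0 hτ
  have h1 : ActsBy P (φ * τ * φ⁻¹) (a ^ q) := by
    intro x hx
    have hx' : φ⁻¹ • x ∈ P := hφinv x hx
    have h2 : τ • (φ⁻¹ • x) - a * (φ⁻¹ • x) ∈ P ^ 2 := ha _ hx'
    have h3 : φ • (τ • (φ⁻¹ • x) - a * (φ⁻¹ • x)) ∈ P ^ 2 := smul_mem_pow_of_forall hφP 2 h2
    have key : (φ * τ * φ⁻¹) • x - a ^ q * x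
        = φ • (τ • (φ⁻¹ • x) - a * (φ⁻¹ • x)) + (φ • a - a ^ q) * x := by
      rw [mul_smul, mul_smul, smul_sub, smul_mul', smul_inv_smul]; ring
    rw [key]
    refine (P ^ 2).add_mem h3 ?_
    rw [pow_two]; exact Ideal.mul_mem_mul (hφ a) hx
  have h2 : ActsBy P (τ ^ q) (a ^ q) := actsBy_pow hτ ha q
  have h3 : theta hP0 ⟨φ * τ * φ⁻¹, hconj⟩ = theta hP0 (⟨τ, hτ⟩ ^ q) := by
    rw [(theta_eq_iff hP0 _ (a ^ q)).mpr h1]
    exact ((theta_eq_iff hP0 _ (a ^ q)).mpr h2).symm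
  exact (theta_eq_theta_iff hP0 _ _).mp h3

end Dedekind

end Fermat.Agent.TW.Tame22.Theta
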