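/-
Programme TW (S56), brick TAME (helper22), file 3: from a valuation subring `A` of `ℚ̄` over `q`
to the prime `𝔓 = m_A ∩ 𝓞 L` of a finite Galois level `L/ℚ`.

* `isMaximal_primeBelow`, `primeBelow_ne_bot`, `natCast_mem_primeBelow`;
* `faithfulSMul_integers` : `Gal(L/ℚ)` acts faithfully on `𝓞 L`;
* `restrict_mem_inertia`  : `res (I_A) ⊆ I_𝔓`;
* `restrict_frobenius`    : a Frobenius element at `A` restricts to an element stabilising `𝔓` and
  acting as `x ↦ x ^ q` modulo `𝔓`.
-/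
import Mathlib
import Fermat.Prelude.Def_FLTPrelim_Ramification
import Fermat.Prelude.Def_EllipticCurve_FrobeniusTrace
import Fermat.Agent.PT.BR.UnramBridge13
import Fermat.Agent.TW.Tame22.Theta

set_option autoImplicit false
set_option linter.unusedSectionVars false

open NumberField
open scoped Pointwise

namespace Fermat.Agent.TW.Tame22.Level

open Fermat.Agent.S13.UnramRam Fermat.Agent.S13.UnramVal

local notation "Qbar" => AlgebraicClosure ℚ

local instance isAlgClosureQbar22 : IsAlgClosure ℚ Qbar := ⟨inferInstance, inferInstance⟩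
local instance normalQbar22 : Normal ℚ Qbar := IsAlgClosure.normal ℚ Qbar
local instance isGaloisQbar22 : IsGalois ℚ Qbar := IsAlgClosure.isGalois ℚ Qbar

variable (L : IntermediateField ℚ Qbar)

/-- The image in `ℚ̄` of an algebraic integer of `L` lies in every valuation subring. -/
theorem coe_mem (A : ValuationSubring Qbar) (x : 𝓞 L) : (((x : L) : Qbar)) ∈ A :=
  mem_of_isIntegral_int A (map_isIntegral_int (algebraMap L Qbar) x.2)

theorem natCast_mem_primeBelow {A : ValuationSubring Qbar} {q : ℕ} (hA : A.LiesOverPrime q) :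
    ((q : ℕ) : 𝓞 L) ∈ primeBelow L A := by
  rw [mem_primeBelow_iff]
  have : ((((q : ℕ) : 𝓞 L) : L) : Qbar) = (q : Qbar) := by simp
  rw [this]; exact hA

variable [FiniteDimensional ℚ L]

theorem primeBelow_ne_bot {A : ValuationSubring Qbar} {q : ℕ} (hq : q.Prime)
    (hA : A.LiesOverPrime q) : primeBelow L A ≠ ⊥ := by
  intro h
  have h1 := natCast_mem_primeBelow L hA
  rw [h, Ideal.mem_bot] at h1
  have h2 : ((q : ℕ) : 𝓞 L) ≠ 0 := Nat.cast_ne_zero.mpr hq.ne_zero
  exact h2 h1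

theorem isMaximal_primeBelow {A : ValuationSubring Qbar} {q : ℕ} (hq : q.Prime)
    (hA : A.LiesOverPrime q) : (primeBelow L A).IsMaximal :=
  Ideal.IsPrime.isMaximal inferInstance (primeBelow_ne_bot L hq hA)

variable [IsGalois ℚ L]

/-- `Gal(L/ℚ)` acts faithfully on the ring of integers. -/
theorem faithfulSMul_integers : FaithfulSMul (L ≃ₐ[ℚ] L) (𝓞 L) := by
  refine ⟨fun {σ τ} h => AlgEquiv.ext fun y => ?_⟩
  obtain ⟨a, b, hb, rfl⟩ := IsFractionRing.div_surjective (A := 𝓞 L) y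
  have ha' : σ (algebraMap (𝓞 L) L a) = τ (algebraMap (𝓞 L) L a) := by
    have := congrArg (fun z : 𝓞 L => (z : L)) (h a)
    simpa only [Fermat.Agent.S14.UnramLevel.coe_smul_integer] using this
  have hb' : σ (algebraMap (𝓞 L) L b) = τ (algebraMap (𝓞 L) L b) := by
    have := congrArg (fun z : 𝓞 L => (z : L)) (h b)
    simpa only [Fermat.Agent.S14.UnramLevel.coe_smul_integer] using this
  rw [map_div₀, map_div₀, ha', hb']


/-- The restriction of `σ` acts on integers of `L` as `σ` does in `ℚ̄`. -/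
theorem coe_restrict_smul (σ : Qbar ≃ₐ[ℚ] Qbar) (x : 𝓞 L) :
    ((((AlgEquiv.restrictNormalHom L σ) • x : 𝓞 L) : L) : Qbar) = σ ((x : L) : Qbar) := by
  rw [Fermat.Agent.S14.UnramLevel.coe_smul_integer]
  exact AlgEquiv.restrictNormal_commutes σ L (x : L)

/-- `res (I_A) ⊆ I_𝔓`. -/
theorem restrict_mem_inertia (A : ValuationSubring Qbar) {σ : Qbar ≃ₐ[ℚ] Qbar}
    (hσ : σ ∈ A.inertiaSubgroupIn ℚ) :
    AlgEquiv.restrictNormalHom L σ ∈ (primeBelow L A).inertia (L ≃ₐ[ℚ] L) :=
  Fermat.Agent.PT.BR.UnramBridge13.restrictNormal_mem_inertia L A hσ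

/-- Elements of the decomposition group of `A` restrict to elements stabilising `𝔓`. -/
theorem restrict_smul_mem (A : ValuationSubring Qbar) {σ : Qbar ≃ₐ[ℚ] Qbar}
    (hσ : σ ∈ A.decompositionSubgroup ℚ) {x : 𝓞 L} (hx : x ∈ primeBelow L A) :
    (AlgEquiv.restrictNormalHom L σ) • x ∈ primeBelow L A := by
  rw [mem_primeBelow_iff] at hx ⊢
  rw [coe_restrict_smul]
  rw [ValuationSubring.mem_nonunits_iff] at hx ⊢
  rwa [Fermat.Agent.S05.Inertia.valuation_apply_of_mem_decomposition hσ]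

/-- The Frobenius congruence in `ℚ̄`. -/
theorem sub_pow_mem_nonunits {A : ValuationSubring Qbar} {φ : Qbar ≃ₐ[ℚ] Qbar} {q : ℕ}
    (h : A.IsFrobeniusAt φ q) {x : Qbar} (hx : x ∈ A) : φ x - x ^ q ∈ A.nonunits := by
  set g : A.decompositionSubgroup ℚ := ⟨φ, h.mem_decompositionSubgroup⟩ with hg
  set xA : A := ⟨x, hx⟩ with hxA
  have h1 := h.smul_residue_eq (IsLocalRing.residue A xA)
  rw [← IsLocalRing.ResidueField.residue_smul, ← map_pow, ← sub_eq_zero, ← map_sub,
    IsLocalRing.residue_eq_zero_iff, ← ValuationSubring.coe_mem_nonunits_iff] at h1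
  exact h1

/-- A Frobenius element at `A` restricts to a Frobenius element at `𝔓`. -/
theorem restrict_frobenius {A : ValuationSubring Qbar} {φ : Qbar ≃ₐ[ℚ] Qbar} {q : ℕ}
    (h : A.IsFrobeniusAt φ q) (x : 𝓞 L) :
    (AlgEquiv.restrictNormalHom L φ) • x - x ^ q ∈ primeBelow L A := by
  rw [mem_primeBelow_iff]
  have h1 := sub_pow_mem_nonunits h (coe_mem L A x)
  have h2 : (((((AlgEquiv.restrictNormalHom L φ) • x - x ^ q : 𝓞 L) : L)) : Qbar)
      = φ ((x : L) : Qbar) - ((x : L) : Qbar) ^ q := by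
    rw [← coe_restrict_smul L φ x]
    simp
  rw [h2]; exact h1

end Fermat.Agent.TW.Tame22.Level
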