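/-
Programme TW (S56), brick TAME (helper22), file 4: structure of tame inertia for `ℚ̄ / ℚ`.

`A` a valuation subring of `ℚ̄` over the prime `q`, `I = A.inertiaSubgroupIn ℚ`,
`L ⊂ ℚ̄` a finite extension of `ℚ`.

* `exists_tame_generator` : there is `τ₀ ∈ I` such that every `τ ∈ I` is, modulo the subgroup
  fixing `L` and up to an element of `q`-power order, a power of `τ₀`.
* `frobenius_conj` : for a Frobenius element `φ` at `A` and `τ ∈ I`, `φ τ φ⁻¹ ∈ I` and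
  `(φ τ φ⁻¹)⁻¹ τ ^ q` has `q`-power order modulo the subgroup fixing `L`.

Group-homomorphism forms (what the local deformation bricks use): `g : Gal(ℚ̄/ℚ) →* H` trivial on
the subgroup fixing a finite `L`, with `g(I)` consisting of elements of `p`-power order, `p ≠ q`:

* `exists_generator_of_hom` : `g(I)` is cyclic: `∃ τ₀ ∈ I, ∀ τ ∈ I, ∃ n : ℤ, g τ = g τ₀ ^ n`;
* `frobenius_conj_of_hom`   : `g (φ τ φ⁻¹) = g τ ^ q`.
-/
import Mathlib
import Fermat.Agent.ES.FROB.FrobFacts12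
import Fermat.Agent.TW.Tame22.Level

set_option autoImplicit false
set_option linter.unusedSectionVars false
set_option linter.style.haveILetI false

open NumberField
open scoped Pointwise

namespace Fermat.Agent.TW.Tame22.Main

open Fermat.Agent.S13.UnramRam Fermat.Agent.S13.UnramVal
open Fermat.Agent.TW.Tame22.Wild Fermat.Agent.TW.Tame22.Theta Fermat.Agent.TW.Tame22.Level

local notation "Qbar" => AlgebraicClosure ℚ

local instance isAlgClosureQbarM22 : IsAlgClosure ℚ Qbar := ⟨inferInstance, inferInstance⟩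
local instance normalQbarM22 : Normal ℚ Qbar := IsAlgClosure.normal ℚ Qbar
local instance isGaloisQbarM22 : IsGalois ℚ Qbar := IsAlgClosure.isGalois ℚ Qbar

section Galois

variable (L : IntermediateField ℚ Qbar) [FiniteDimensional ℚ L] [IsGalois ℚ L]

/-- If the restriction of `w` to `L` is wild at `𝔓 = m_A ∩ 𝓞 L`, then a `q`-power of `w`
fixes `L`. -/
theorem exists_pow_mem_fixingSubgroup {q : ℕ} (hq : q.Prime) {A : ValuationSubring Qbar}
    (hA : A.LiesOverPrime q) {w : Qbar ≃ₐ[ℚ] Qbar}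
    (hw : haveI := isMaximal_primeBelow L hq hA
      AlgEquiv.restrictNormalHom L w ∈ wild (primeBelow L A) (L ≃ₐ[ℚ] L)) :
    ∃ a : ℕ, w ^ (q ^ a) ∈ L.fixingSubgroup := by
  haveI := isMaximal_primeBelow L hq hA
  haveI : Fact q.Prime := ⟨hq⟩
  haveI := faithfulSMul_integers L
  have hpg := isPGroup_wild (G := L ≃ₐ[ℚ] L) (primeBelow L A) q (natCast_mem_primeBelow L hA)
  obtain ⟨a, ha⟩ := hpg ⟨_, hw⟩
  refine ⟨a, ?_⟩
  have h1 : AlgEquiv.restrictNormalHom L (w ^ (q ^ a)) = 1 := by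
    rw [map_pow]; exact congrArg Subtype.val ha
  rw [IntermediateField.mem_fixingSubgroup_iff]
  intro x hx
  have h2 := AlgEquiv.restrictNormal_commutes (w ^ (q ^ a)) L ⟨x, hx⟩
  have h3 : AlgEquiv.restrictNormal (w ^ (q ^ a)) L = 1 := h1
  rw [h3] at h2
  exact h2.symm

theorem exists_tame_generator_galois {q : ℕ} (hq : q.Prime) (A : ValuationSubring Qbar)
    (hA : A.LiesOverPrime q) :
    ∃ τ₀ ∈ A.inertiaSubgroupIn ℚ, ∀ τ ∈ A.inertiaSubgroupIn ℚ, ∃ (n : ℤ) (a : ℕ),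
      ((τ₀ ^ n)⁻¹ * τ) ^ (q ^ a) ∈ L.fixingSubgroup := by
  haveI := isMaximal_primeBelow L hq hA
  have hne := primeBelow_ne_bot L hq hA
  set J : Subgroup (L ≃ₐ[ℚ] L) := (A.inertiaSubgroupIn ℚ).map (AlgEquiv.restrictNormalHom L)
    with hJdef
  have hJ : J ≤ (primeBelow L A).inertia (L ≃ₐ[ℚ] L) := by
    rintro _ ⟨σ, hσ, rfl⟩
    exact restrict_mem_inertia L A hσ
  obtain ⟨τ₀', ⟨τ₀, hτ₀, rfl⟩, hgen⟩ := exists_generator_of_le hne J hJ
  refine ⟨τ₀, hτ₀, fun τ hτ => ?_⟩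
  obtain ⟨n, hn⟩ := hgen _ (Subgroup.mem_map_of_mem _ hτ)
  have hw : AlgEquiv.restrictNormalHom L ((τ₀ ^ n)⁻¹ * τ) ∈
      wild (primeBelow L A) (L ≃ₐ[ℚ] L) := by
    rw [map_mul, map_inv, map_zpow]; exact hn
  obtain ⟨a, ha⟩ := exists_pow_mem_fixingSubgroup L hq hA hw
  exact ⟨n, a, ha⟩

theorem frobenius_conj_galois {q : ℕ} (hq : q.Prime) (A : ValuationSubring Qbar)
    (hA : A.LiesOverPrime q) {φ : Qbar ≃ₐ[ℚ] Qbar} (hφ : A.IsFrobeniusAt φ q)
    {τ : Qbar ≃ₐ[ℚ] Qbar} (hτ : τ ∈ A.inertiaSubgroupIn ℚ) :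
    ∃ a : ℕ, ((φ * τ * φ⁻¹)⁻¹ * τ ^ q) ^ (q ^ a) ∈ L.fixingSubgroup := by
  haveI := isMaximal_primeBelow L hq hA
  have hne := primeBelow_ne_bot L hq hA
  have h1 := (frob_conj_mem_wild (G := L ≃ₐ[ℚ] L) (P := primeBelow L A) hne (q := q)
    (φ := AlgEquiv.restrictNormalHom L φ)
    (fun x hx => restrict_smul_mem L A hφ.mem_decompositionSubgroup hx)
    (fun x => restrict_frobenius L hφ x) (restrict_mem_inertia L A hτ)).2
  have hw : AlgEquiv.restrictNormalHom L ((φ * τ * φ⁻¹)⁻¹ * τ ^ q) ∈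
      wild (primeBelow L A) (L ≃ₐ[ℚ] L) := by
    rw [map_mul, map_inv, map_mul, map_mul, map_inv, map_pow]; exact h1
  exact exists_pow_mem_fixingSubgroup L hq hA hw

end Galois

/-- **Tame inertia is pro-cyclic** (finite-level form, arbitrary finite `L`). -/
theorem exists_tame_generator {q : ℕ} (hq : q.Prime) (A : ValuationSubring Qbar)
    (hA : A.LiesOverPrime q) (L : IntermediateField ℚ Qbar) [FiniteDimensional ℚ L] :
    ∃ τ₀ ∈ A.inertiaSubgroupIn ℚ, ∀ τ ∈ A.inertiaSubgroupIn ℚ, ∃ (n : ℤ) (a : ℕ),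
      ((τ₀ ^ n)⁻¹ * τ) ^ (q ^ a) ∈ L.fixingSubgroup := by
  haveI : FiniteDimensional ℚ (IntermediateField.normalClosure ℚ L Qbar) :=
    normalClosure.is_finiteDimensional ℚ L Qbar
  haveI : IsGalois ℚ (IntermediateField.normalClosure ℚ L Qbar) :=
    IsGalois.normalClosure ℚ L Qbar
  obtain ⟨τ₀, hτ₀, h⟩ :=
    exists_tame_generator_galois (IntermediateField.normalClosure ℚ L Qbar) hq A hA
  refine ⟨τ₀, hτ₀, fun τ hτ => ?_⟩
  obtain ⟨n, a, ha⟩ := h τ hτ
  exact ⟨n, a, IntermediateField.fixingSubgroup_antitone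
    (IntermediateField.le_normalClosure L) ha⟩

/-- **Frobenius acts on tame inertia by the `q`-th power** (finite-level form). -/
theorem frobenius_conj {q : ℕ} (hq : q.Prime) (A : ValuationSubring Qbar)
    (hA : A.LiesOverPrime q) (L : IntermediateField ℚ Qbar) [FiniteDimensional ℚ L]
    {φ : Qbar ≃ₐ[ℚ] Qbar} (hφ : A.IsFrobeniusAt φ q)
    {τ : Qbar ≃ₐ[ℚ] Qbar} (hτ : τ ∈ A.inertiaSubgroupIn ℚ) :
    φ * τ * φ⁻¹ ∈ A.inertiaSubgroupIn ℚ ∧
      ∃ a : ℕ, ((φ * τ * φ⁻¹)⁻¹ * τ ^ q) ^ (q ^ a) ∈ L.fixingSubgroup := by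
  refine ⟨Fermat.Agent.ES.FROB.FrobFacts12.conj_mem_inertiaSubgroupIn A
    hφ.mem_decompositionSubgroup hτ, ?_⟩
  haveI : FiniteDimensional ℚ (IntermediateField.normalClosure ℚ L Qbar) :=
    normalClosure.is_finiteDimensional ℚ L Qbar
  haveI : IsGalois ℚ (IntermediateField.normalClosure ℚ L Qbar) :=
    IsGalois.normalClosure ℚ L Qbar
  obtain ⟨a, ha⟩ :=
    frobenius_conj_galois (IntermediateField.normalClosure ℚ L Qbar) hq A hA hφ hτ
  exact ⟨a, IntermediateField.fixingSubgroup_antitone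
    (IntermediateField.le_normalClosure L) ha⟩

end Fermat.Agent.TW.Tame22.Main
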