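/-
Programme TW (S56), brick TAME (helper22), file 5: consumer forms of the tame-inertia structure.

`A` a valuation subring of `ℚ̄` over the prime `q`, `I = A.inertiaSubgroupIn ℚ`, `p ≠ q` a prime.

Group homomorphisms.  `g : Gal(ℚ̄/ℚ) →* H` of finite level (trivial on the automorphisms fixing a
finite extension `L`), every element of `g(I)` of `p`-power order:
* `exists_generator_of_hom` : `∃ τ₀ ∈ I, ∀ τ ∈ I, ∃ n : ℤ, g τ = g τ₀ ^ n`;
* `frobenius_conj_of_hom`   : `g (φ τ φ⁻¹) = g τ ^ q` for every Frobenius element `φ` at `A`.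

Cocycles.  `M` an abelian group killed by a power of `p` with an action `ρ` of `Gal(ℚ̄/ℚ)` that
is unramified at `A` (`ρ τ = 1` on `I`), `c` a `1`-cocycle of finite level:
* `exists_generator_of_cocycle` : `∃ τ₀ ∈ I, ∀ τ ∈ I, ∃ n : ℤ, c τ = n • c τ₀`;
* `frobenius_smul_cocycle`      : `ρ φ (c τ) = q • c τ` for `τ ∈ I` and `φ` a Frobenius at `A`;
  in particular (`frobenius_fixes_cocycle`) `ρ φ (c τ) = c τ` when `q ≡ 1` modulo the exponent.
-/
import Mathlib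
import Fermat.Agent.TW.Tame22.Main

set_option autoImplicit false
set_option linter.unusedSectionVars false

namespace Fermat.Agent.TW.Tame22.Hom

open Fermat.Agent.TW.Tame22.Main

local notation "Qbar" => AlgebraicClosure ℚ
local notation "Γ" => (AlgebraicClosure ℚ ≃ₐ[ℚ] AlgebraicClosure ℚ)

/-- An element killed by a power of `q` and by a power of `p ≠ q` is trivial. -/
theorem eq_one_of_pow_pow {H : Type*} [Monoid H] {q p : ℕ} (hq : q.Prime) (hp : p.Prime)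
    (hpq : p ≠ q) {x : H} {a b : ℕ} (ha : x ^ (q ^ a) = 1) (hb : x ^ (p ^ b) = 1) : x = 1 := by
  have hcop : Nat.Coprime (q ^ a) (p ^ b) :=
    Nat.Coprime.pow a b ((Nat.coprime_primes hq hp).mpr (Ne.symm hpq))
  have h : x ^ Nat.gcd (q ^ a) (p ^ b) = 1 := pow_gcd_eq_one.mpr ⟨ha, hb⟩
  rw [hcop.gcd_eq_one, pow_one] at h
  exact h

section GroupHom

variable {H : Type*} [Group H] (g : Γ →* H)

/-- **The image of inertia at `q` in a finite-level `p`-group quotient is cyclic.** -/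
theorem exists_generator_of_hom {q p : ℕ} (hq : q.Prime) (hp : p.Prime) (hpq : p ≠ q)
    (A : ValuationSubring Qbar) (hA : A.LiesOverPrime q)
    (L : IntermediateField ℚ Qbar) [FiniteDimensional ℚ L]
    (hL : ∀ σ : Γ, (∀ x ∈ L, σ x = x) → g σ = 1)
    (hpow : ∀ τ ∈ A.inertiaSubgroupIn ℚ, ∃ b : ℕ, g τ ^ (p ^ b) = 1) :
    ∃ τ₀ ∈ A.inertiaSubgroupIn ℚ, ∀ τ ∈ A.inertiaSubgroupIn ℚ, ∃ n : ℤ, g τ = g τ₀ ^ n := by
  obtain ⟨τ₀, hτ₀, h⟩ := exists_tame_generator hq A hA L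
  refine ⟨τ₀, hτ₀, fun τ hτ => ?_⟩
  obtain ⟨n, a, ha⟩ := h τ hτ
  refine ⟨n, ?_⟩
  have hw : (τ₀ ^ n)⁻¹ * τ ∈ A.inertiaSubgroupIn ℚ :=
    (A.inertiaSubgroupIn ℚ).mul_mem
      ((A.inertiaSubgroupIn ℚ).inv_mem ((A.inertiaSubgroupIn ℚ).zpow_mem hτ₀ n)) hτ
  obtain ⟨b, hb⟩ := hpow _ hw
  have h1 : g ((τ₀ ^ n)⁻¹ * τ) ^ (q ^ a) = 1 := by
    rw [← map_pow]
    exact hL _ ((IntermediateField.mem_fixingSubgroup_iff _ _).mp ha)
  have h2 := eq_one_of_pow_pow hq hp hpq h1 hb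
  rw [map_mul, map_inv, map_zpow, inv_mul_eq_one] at h2
  exact h2.symm

/-- **Frobenius acts on the image of inertia by the `q`-th power.** -/
theorem frobenius_conj_of_hom {q p : ℕ} (hq : q.Prime) (hp : p.Prime) (hpq : p ≠ q)
    (A : ValuationSubring Qbar) (hA : A.LiesOverPrime q)
    (L : IntermediateField ℚ Qbar) [FiniteDimensional ℚ L]
    (hL : ∀ σ : Γ, (∀ x ∈ L, σ x = x) → g σ = 1)
    (hpow : ∀ τ ∈ A.inertiaSubgroupIn ℚ, ∃ b : ℕ, g τ ^ (p ^ b) = 1)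
    {φ : Γ} (hφ : A.IsFrobeniusAt φ q) {τ : Γ} (hτ : τ ∈ A.inertiaSubgroupIn ℚ) :
    g (φ * τ * φ⁻¹) = g τ ^ q := by
  obtain ⟨hconj, a, ha⟩ := frobenius_conj hq A hA L hφ hτ
  have hw : (φ * τ * φ⁻¹)⁻¹ * τ ^ q ∈ A.inertiaSubgroupIn ℚ :=
    (A.inertiaSubgroupIn ℚ).mul_mem ((A.inertiaSubgroupIn ℚ).inv_mem hconj)
      ((A.inertiaSubgroupIn ℚ).pow_mem hτ q)
  obtain ⟨b, hb⟩ := hpow _ hw
  have h1 : g ((φ * τ * φ⁻¹)⁻¹ * τ ^ q) ^ (q ^ a) = 1 := by
    rw [← map_pow]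
    exact hL _ ((IntermediateField.mem_fixingSubgroup_iff _ _).mp ha)
  have h2 := eq_one_of_pow_pow hq hp hpq h1 hb
  rw [map_mul, map_inv, map_pow, inv_mul_eq_one] at h2
  exact h2

end GroupHom

section Cocycle

variable {M : Type*} [AddCommGroup M] (act : Γ → M →+ M) (c : Γ → M)

/-- On the inertia group of an unramified module a cocycle is additive; packaged as a
homomorphism to `Multiplicative M`. -/
noncomputable def cocycleHom (A : ValuationSubring Qbar)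
    (hc : ∀ σ τ : Γ, c (σ * τ) = c σ + act σ (c τ))
    (hur : ∀ τ ∈ A.inertiaSubgroupIn ℚ, ∀ x : M, act τ x = x) :
    A.inertiaSubgroupIn ℚ →* Multiplicative M where
  toFun τ := Multiplicative.ofAdd (c τ)
  map_one' := by
    have h := hc 1 1
    rw [mul_one, hur 1 (A.inertiaSubgroupIn ℚ).one_mem] at h
    have h0 : c (1 : Γ) = 0 := add_eq_left.mp h.symm
    change Multiplicative.ofAdd (c 1) = 1
    rw [h0]; rfl
  map_mul' σ τ := by
    change Multiplicative.ofAdd (c ((σ : Γ) * (τ : Γ))) = _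
    rw [hc, hur σ σ.2]
    rfl

theorem cocycleHom_apply (A : ValuationSubring Qbar)
    (hc : ∀ σ τ : Γ, c (σ * τ) = c σ + act σ (c τ))
    (hur : ∀ τ ∈ A.inertiaSubgroupIn ℚ, ∀ x : M, act τ x = x) (τ : A.inertiaSubgroupIn ℚ) :
    Multiplicative.toAdd (cocycleHom act c A hc hur τ) = c τ := rfl

/-- In an abelian group killed by `p ^ e`, an element killed by a power of `q ≠ p` is zero. -/
theorem eq_zero_of_smul_smul {q p e : ℕ} (hq : q.Prime) (hp : p.Prime) (hpq : p ≠ q)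
    (hM : ∀ x : M, (p ^ e) • x = 0) {x : M} {a : ℕ} (ha : (q ^ a) • x = 0) : x = 0 := by
  have h := eq_one_of_pow_pow (H := Multiplicative M) hq hp hpq
    (x := Multiplicative.ofAdd x) (a := a) (b := e)
    (by rw [← ofAdd_nsmul, ha]; rfl) (by rw [← ofAdd_nsmul, hM x]; rfl)
  exact h

variable {q p e : ℕ} (hq : q.Prime) (hp : p.Prime) (hpq : p ≠ q)
  (A : ValuationSubring Qbar) (hA : A.LiesOverPrime q)
  (L : IntermediateField ℚ Qbar) [FiniteDimensional ℚ L]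
  (hM : ∀ x : M, (p ^ e) • x = 0)
  (hc : ∀ σ τ : Γ, c (σ * τ) = c σ + act σ (c τ))
  (hcL : ∀ σ : Γ, (∀ x ∈ L, σ x = x) → c σ = 0)
  (hur : ∀ τ ∈ A.inertiaSubgroupIn ℚ, ∀ x : M, act τ x = x)

include hq hp hpq hA hM hc hcL hur

/-- **A cocycle of an unramified `p`-primary module has cyclic image on inertia at `q ≠ p`.** -/
theorem exists_generator_of_cocycle :
    ∃ τ₀ ∈ A.inertiaSubgroupIn ℚ, ∀ τ ∈ A.inertiaSubgroupIn ℚ, ∃ n : ℤ, c τ = n • c τ₀ := by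
  obtain ⟨τ₀, hτ₀, h⟩ := exists_tame_generator hq A hA L
  refine ⟨τ₀, hτ₀, fun τ hτ => ?_⟩
  obtain ⟨n, a, ha⟩ := h τ hτ
  refine ⟨n, ?_⟩
  set f := cocycleHom act c A hc hur with hf
  set w : A.inertiaSubgroupIn ℚ := (⟨τ₀, hτ₀⟩ ^ n)⁻¹ * ⟨τ, hτ⟩ with hw
  have h1 : c ((w ^ (q ^ a) : A.inertiaSubgroupIn ℚ) : Γ) = 0 := by
    apply hcL
    have : ((w ^ (q ^ a) : A.inertiaSubgroupIn ℚ) : Γ) = ((τ₀ ^ n)⁻¹ * τ) ^ (q ^ a) := by
      simp [hw]
    rw [this]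
    exact (IntermediateField.mem_fixingSubgroup_iff _ _).mp ha
  have h2 : (q ^ a) • Multiplicative.toAdd (f w) = 0 := by
    have : Multiplicative.toAdd (f (w ^ (q ^ a))) = 0 := h1
    rwa [map_pow, toAdd_pow] at this
  have h3 : Multiplicative.toAdd (f w) = 0 := eq_zero_of_smul_smul hq hp hpq hM h2
  have h4 : Multiplicative.toAdd (f w) = c τ - n • c τ₀ := by
    rw [hw, map_mul, map_inv, map_zpow, toAdd_mul, toAdd_inv, toAdd_zpow]
    change -(n • c τ₀) + c τ = _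
    abel
  rw [h4, sub_eq_zero] at h3
  exact h3

/-- **Frobenius acts on the values of a cocycle on inertia by multiplication by `q`.** -/
theorem frobenius_smul_cocycle {φ : Γ} (hφ : A.IsFrobeniusAt φ q) {τ : Γ}
    (hτ : τ ∈ A.inertiaSubgroupIn ℚ) : act φ (c τ) = q • c τ := by
  obtain ⟨hconj, a, ha⟩ := frobenius_conj hq A hA L hφ hτ
  set f := cocycleHom act c A hc hur with hf
  set w : A.inertiaSubgroupIn ℚ := (⟨φ * τ * φ⁻¹, hconj⟩)⁻¹ * ⟨τ, hτ⟩ ^ q with hw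
  have h1 : c ((w ^ (q ^ a) : A.inertiaSubgroupIn ℚ) : Γ) = 0 := by
    apply hcL
    have : ((w ^ (q ^ a) : A.inertiaSubgroupIn ℚ) : Γ)
        = ((φ * τ * φ⁻¹)⁻¹ * τ ^ q) ^ (q ^ a) := by
      simp [hw]
    rw [this]
    exact (IntermediateField.mem_fixingSubgroup_iff _ _).mp ha
  have h2 : (q ^ a) • Multiplicative.toAdd (f w) = 0 := by
    have : Multiplicative.toAdd (f (w ^ (q ^ a))) = 0 := h1
    rwa [map_pow, toAdd_pow] at this
  have h3 : Multiplicative.toAdd (f w) = 0 := eq_zero_of_smul_smul hq hp hpq hM h2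
  have h4 : Multiplicative.toAdd (f w) = q • c τ - c (φ * τ * φ⁻¹) := by
    rw [hw, map_mul, map_inv, map_pow, toAdd_mul, toAdd_inv, toAdd_pow]
    change -(c (φ * τ * φ⁻¹)) + q • c τ = _
    abel
  rw [h4, sub_eq_zero] at h3
  -- cocycle computation of `c (φ τ φ⁻¹)`
  have hc1 : c (1 : Γ) = 0 := by
    have h := hc 1 1
    rw [mul_one, hur 1 (A.inertiaSubgroupIn ℚ).one_mem] at h
    exact add_eq_left.mp h.symm
  have h5 : c φ + act φ (c φ⁻¹) = 0 := by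
    rw [← hc, mul_inv_cancel, hc1]
  have h6 : c (φ * τ * φ⁻¹) = act φ (c τ) := by
    rw [mul_assoc, hc φ (τ * φ⁻¹), hc τ φ⁻¹, hur τ hτ, map_add, ← add_assoc,
      add_right_comm, h5, zero_add]
  rw [← h6, h3]

/-- If `q ≡ 1` modulo the exponent of `M`, Frobenius fixes the values of a cocycle on inertia. -/
theorem frobenius_fixes_cocycle (hq1 : p ^ e ∣ q - 1) {φ : Γ} (hφ : A.IsFrobeniusAt φ q) {τ : Γ}
    (hτ : τ ∈ A.inertiaSubgroupIn ℚ) : act φ (c τ) = c τ := by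
  rw [frobenius_smul_cocycle act c hq hp hpq A hA L hM hc hcL hur hφ hτ]
  obtain ⟨m, hm⟩ := hq1
  have hq' : q = p ^ e * m + 1 := by
    have := hq.one_le
    omega
  rw [hq', add_smul, one_smul, mul_comm, mul_smul, hM, smul_zero, zero_add]

end Cocycle

end Fermat.Agent.TW.Tame22.Hom
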